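import Mathlib

/-!
# W9 (S31) / W8 (S30), (M7-abs): the saturation constant (Artin–Rees), abstract form (helper24)

`H` a `ℤ`-submodule (subalgebra) of a finitely generated `ℤ`-module `M` (of `Mat_d(ℤ)`), `p : ℕ`.
There is a constant `c` such that every element of `H` which is divisible by `p ^ (n + c)` in `M`
is `p ^ n` times an element of `H`.

* `h24_sat_submodule` : the statement for a submodule of a finite `ℤ`-module;
* `h24_sat_matrix` : the statement for a subalgebra of `Mat_d(ℤ)`, divisibility entry by entry;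
* `h24_sat_hom` : the image under an algebra homomorphism `Φ : H →ₐ[ℤ] R` lies in `(p ^ n)`;
* `h24_sat_aeval` : the same for a difference `P(s) - P'(s')` of polynomials in two elements;
* `h24_aeval_dickson` : `aeval T (dickson 1 (ℓ : ℤ) k) = (dickson 1 (ℓ : R) k).eval T`;
* `h24_sat_dickson` : `h24_sat_aeval` for Dickson polynomials, in the spelling of `StHCd`;
* `h24_sat_inj`, `h24_sat_inj_aeval`, `h24_sat_inj_dickson` : the same for a commutative ring `R`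
  with an INJECTIVE ring homomorphism `Ψ : R →+* Mat_d(ℤ)` (the Hecke algebra acting on the
  lattice of parabolic homomorphisms).
-/

set_option autoImplicit false

open Polynomial

namespace Fermat.Agent.S31x.Sat.H24

/-- Membership in `span {a} ^ n • ⊤`. -/
theorem h24_mem_span_pow_smul_top {M : Type*} [AddCommGroup M] (a : ℤ) (n : ℕ) (t : M) :
    t ∈ (Ideal.span {a} ^ n • (⊤ : Submodule ℤ M)) ↔ ∃ u : M, t = a ^ n • u := by
  rw [Ideal.span_singleton_pow, Submodule.ideal_span_singleton_smul,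
    Submodule.mem_smul_pointwise_iff_exists]
  constructor
  · rintro ⟨u, -, rfl⟩
    exact ⟨u, rfl⟩
  · rintro ⟨u, rfl⟩
    exact ⟨u, trivial, rfl⟩

/-- Membership in `span {a} ^ n • N`. -/
theorem h24_mem_span_pow_smul {M : Type*} [AddCommGroup M] (a : ℤ) (n : ℕ) (N : Submodule ℤ M)
    (t : M) : t ∈ (Ideal.span {a} ^ n • N) ↔ ∃ u ∈ N, t = a ^ n • u := by
  rw [Ideal.span_singleton_pow, Submodule.ideal_span_singleton_smul,
    Submodule.mem_smul_pointwise_iff_exists]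
  constructor
  · rintro ⟨u, hu, rfl⟩
    exact ⟨u, hu, rfl⟩
  · rintro ⟨u, hu, rfl⟩
    exact ⟨u, hu, rfl⟩

/-- **(M7-abs)** saturation constant of a submodule of a finitely generated `ℤ`-module. -/
theorem h24_sat_submodule {M : Type*} [AddCommGroup M] [Module.Finite ℤ M] (H : Submodule ℤ M)
    (p : ℕ) :
    ∃ c : ℕ, ∀ (n : ℕ) (t : M), t ∈ H → (∃ u : M, t = (p : ℤ) ^ (n + c) • u) →
      ∃ t' ∈ H, t = (p : ℤ) ^ n • t' := by
  obtain ⟨c, hc⟩ := Ideal.exists_pow_inf_eq_pow_smul (Ideal.span {(p : ℤ)}) H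
  refine ⟨c, fun n t ht hu => ?_⟩
  have h1 : t ∈ (Ideal.span {(p : ℤ)} ^ (n + c) • (⊤ : Submodule ℤ M)) ⊓ H :=
    ⟨(h24_mem_span_pow_smul_top _ _ _).mpr hu, ht⟩
  rw [hc (n + c) (Nat.le_add_left c n), Nat.add_sub_cancel] at h1
  obtain ⟨u, hu, hut⟩ := (h24_mem_span_pow_smul _ _ _ _).mp h1
  exact ⟨u, hu.2, hut⟩

/-- A matrix all of whose entries are divisible by `a` is `a` times a matrix. -/
theorem h24_exists_smul_of_dvd {d : ℕ} (a : ℤ) (t : Matrix (Fin d) (Fin d) ℤ)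
    (h : ∀ i j, a ∣ t i j) : ∃ u : Matrix (Fin d) (Fin d) ℤ, t = a • u := by
  choose u hu using h
  exact ⟨Matrix.of u, by ext i j; simp [hu i j]⟩

/-- **(M7-abs)** for a subalgebra of `Mat_d(ℤ)`, divisibility entry by entry. -/
theorem h24_sat_matrix {d : ℕ} (H : Subalgebra ℤ (Matrix (Fin d) (Fin d) ℤ)) (p : ℕ) :
    ∃ c : ℕ, ∀ (n : ℕ) (t : Matrix (Fin d) (Fin d) ℤ), t ∈ H →
      (∀ a b, (p : ℤ) ^ (n + c) ∣ t a b) → ∃ t' ∈ H, t = (p : ℤ) ^ n • t' := by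
  obtain ⟨c, hc⟩ := h24_sat_submodule (Subalgebra.toSubmodule H) p
  refine ⟨c, fun n t ht hdiv => ?_⟩
  exact hc n t ht (h24_exists_smul_of_dvd _ t hdiv)

/-- **(M7-abs)**, image under an algebra homomorphism. -/
theorem h24_sat_hom {d : ℕ} (H : Subalgebra ℤ (Matrix (Fin d) (Fin d) ℤ)) (p : ℕ)
    {R : Type*} [CommRing R] (Φ : ↥H →ₐ[ℤ] R) :
    ∃ c : ℕ, ∀ (n : ℕ) (t : ↥H),
      (∀ a b, (p : ℤ) ^ (n + c) ∣ (t : Matrix (Fin d) (Fin d) ℤ) a b) →
        Φ t ∈ Ideal.span {((p : ℕ) : R) ^ n} := by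
  obtain ⟨c, hc⟩ := h24_sat_matrix H p
  refine ⟨c, fun n t hdiv => ?_⟩
  obtain ⟨t', ht', h⟩ := hc n t t.2 hdiv
  have h1 : t = (p : ℤ) ^ n • (⟨t', ht'⟩ : ↥H) := Subtype.ext h
  rw [h1, map_zsmul, Ideal.mem_span_singleton]
  refine ⟨Φ ⟨t', ht'⟩, ?_⟩
  rw [zsmul_eq_mul]
  push_cast
  rfl

/-- **(M7-abs)**, for a difference of polynomials in two elements: the shape consumed by the
Hecke congruence (HC). -/
theorem h24_sat_aeval {d : ℕ} (H : Subalgebra ℤ (Matrix (Fin d) (Fin d) ℤ)) (p : ℕ)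
    {R : Type*} [CommRing R] (Φ : ↥H →ₐ[ℤ] R) :
    ∃ c : ℕ, ∀ (n : ℕ) (s s' : ↥H) (P P' : ℤ[X]),
      (∀ a b, (p : ℤ) ^ (n + c) ∣
        (aeval (s : Matrix (Fin d) (Fin d) ℤ) P - aeval (s' : Matrix (Fin d) (Fin d) ℤ) P') a b) →
        aeval (Φ s) P - aeval (Φ s') P' ∈ Ideal.span {((p : ℕ) : R) ^ n} := by
  obtain ⟨c, hc⟩ := h24_sat_hom H p Φ
  refine ⟨c, fun n s s' P P' hdiv => ?_⟩
  have h1 : ((aeval s P - aeval s' P' : ↥H) : Matrix (Fin d) (Fin d) ℤ) =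
      aeval (s : Matrix (Fin d) (Fin d) ℤ) P - aeval (s' : Matrix (Fin d) (Fin d) ℤ) P' := by
    rw [Subalgebra.coe_sub]
    have h3 : ∀ (x : ↥H) (Q : ℤ[X]),
        ((aeval x Q : ↥H) : Matrix (Fin d) (Fin d) ℤ) = aeval (x : Matrix (Fin d) (Fin d) ℤ) Q :=
      fun x Q => (aeval_algHom_apply H.val x Q).symm
    rw [h3, h3]
  have h2 := hc n (aeval s P - aeval s' P') (fun a b => by rw [h1]; exact hdiv a b)
  rwa [map_sub, ← aeval_algHom_apply, ← aeval_algHom_apply] at h2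

/-- Bridge between the two spellings of the Dickson values. -/
theorem h24_aeval_dickson {R : Type*} [CommRing R] (T : R) (ℓ : ℕ) (k : ℕ) :
    aeval T (dickson 1 (ℓ : ℤ) k) = (dickson 1 ((ℓ : ℕ) : R) k).eval T := by
  rw [aeval_def, eval₂_eq_eval_map, map_dickson]
  simp

/-- **(M7-abs)**, for Dickson polynomials, in the spelling of the Hecke congruence `StHCd`. -/
theorem h24_sat_dickson {d : ℕ} (H : Subalgebra ℤ (Matrix (Fin d) (Fin d) ℤ)) (p : ℕ)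
    {R : Type*} [CommRing R] (Φ : ↥H →ₐ[ℤ] R) :
    ∃ c : ℕ, ∀ (n : ℕ) (s s' : ↥H) (ℓ k ℓ' k' : ℕ),
      (∀ a b, (p : ℤ) ^ (n + c) ∣
        (aeval (s : Matrix (Fin d) (Fin d) ℤ) (dickson 1 (ℓ : ℤ) k) -
          aeval (s' : Matrix (Fin d) (Fin d) ℤ) (dickson 1 (ℓ' : ℤ) k')) a b) →
        (dickson 1 ((ℓ : ℕ) : R) k).eval (Φ s) - (dickson 1 ((ℓ' : ℕ) : R) k').eval (Φ s') ∈
          Ideal.span {((p : ℕ) : R) ^ n} := by
  obtain ⟨c, hc⟩ := h24_sat_aeval H p Φ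
  refine ⟨c, fun n s s' ℓ k ℓ' k' hdiv => ?_⟩
  rw [← h24_aeval_dickson, ← h24_aeval_dickson]
  exact hc n s s' _ _ hdiv

/-! ### The form for an injective ring homomorphism into `Mat_d(ℤ)` -/

/-- **(M7-abs)** for a ring `R` embedded into `Mat_d(ℤ)` by an injective ring homomorphism `Ψ`:
if all entries of `Ψ r` are divisible by `p ^ (n + c)`, then `r ∈ (p ^ n)`. -/
theorem h24_sat_inj {d : ℕ} {R : Type*} [CommRing R] (Ψ : R →+* Matrix (Fin d) (Fin d) ℤ)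
    (hΨ : Function.Injective Ψ) (p : ℕ) :
    ∃ c : ℕ, ∀ (n : ℕ) (r : R), (∀ a b, (p : ℤ) ^ (n + c) ∣ Ψ r a b) →
      r ∈ Ideal.span {((p : ℕ) : R) ^ n} := by
  obtain ⟨c, hc⟩ := h24_sat_submodule (AddSubgroup.toIntSubmodule Ψ.toAddMonoidHom.range) p
  refine ⟨c, fun n r hdiv => ?_⟩
  obtain ⟨t', ht', h⟩ := hc n (Ψ r) ⟨r, rfl⟩ (h24_exists_smul_of_dvd _ _ hdiv)
  obtain ⟨r', rfl⟩ := ht'
  have h1 : Ψ r = Ψ (((p : ℕ) : R) ^ n * r') := by
    rw [h, map_mul, map_pow, map_natCast, zsmul_eq_mul]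
    push_cast
    rfl
  rw [hΨ h1, Ideal.mem_span_singleton]
  exact ⟨r', rfl⟩

/-- A ring homomorphism commutes with `aeval` of integer polynomials. -/
theorem h24_map_aeval {R A : Type*} [CommRing R] [Ring A] (Ψ : R →+* A) (T : R) (P : ℤ[X]) :
    Ψ (aeval T P) = aeval (Ψ T) P :=
  (aeval_algHom_apply Ψ.toIntAlgHom T P).symm

/-- **(M7-abs)**, injective form, for a difference of polynomials in two elements. -/
theorem h24_sat_inj_aeval {d : ℕ} {R : Type*} [CommRing R]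
    (Ψ : R →+* Matrix (Fin d) (Fin d) ℤ) (hΨ : Function.Injective Ψ) (p : ℕ) :
    ∃ c : ℕ, ∀ (n : ℕ) (T T' : R) (P P' : ℤ[X]),
      (∀ a b, (p : ℤ) ^ (n + c) ∣ (aeval (Ψ T) P - aeval (Ψ T') P') a b) →
        aeval T P - aeval T' P' ∈ Ideal.span {((p : ℕ) : R) ^ n} := by
  obtain ⟨c, hc⟩ := h24_sat_inj Ψ hΨ p
  refine ⟨c, fun n T T' P P' hdiv => hc n _ fun a b => ?_⟩
  rw [map_sub, h24_map_aeval, h24_map_aeval]
  exact hdiv a b

/-- **(M7-abs)**, injective form, for Dickson polynomials, in the spelling of `StHCd`. -/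
theorem h24_sat_inj_dickson {d : ℕ} {R : Type*} [CommRing R]
    (Ψ : R →+* Matrix (Fin d) (Fin d) ℤ) (hΨ : Function.Injective Ψ) (p : ℕ) :
    ∃ c : ℕ, ∀ (n : ℕ) (T T' : R) (ℓ k ℓ' k' : ℕ),
      (∀ a b, (p : ℤ) ^ (n + c) ∣
        (aeval (Ψ T) (dickson 1 (ℓ : ℤ) k) - aeval (Ψ T') (dickson 1 (ℓ' : ℤ) k')) a b) →
        (dickson 1 ((ℓ : ℕ) : R) k).eval T - (dickson 1 ((ℓ' : ℕ) : R) k').eval T' ∈
          Ideal.span {((p : ℕ) : R) ^ n} := by
  obtain ⟨c, hc⟩ := h24_sat_inj_aeval Ψ hΨ p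
  refine ⟨c, fun n T T' ℓ k ℓ' k' hdiv => ?_⟩
  rw [← h24_aeval_dickson, ← h24_aeval_dickson]
  exact hc n T T' _ _ hdiv

end Fermat.Agent.S31x.Sat.H24
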